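/-
S52 / Program E, package E2 (helper14): the explicit 5-torsion points on
`E_v : y² = x³ + 27 H(v) x + 54 T(v)` (Klein's forms), over any field of characteristic
`≠ 2, 3, 5` containing `ψ` (`ψ² = 1 - ψ`, so `r5 = 2ψ + 1`), `ρ` (`25 ρ² = -11664 (18 + 11ψ)`,
i.e. `ρ² = -(5832/25)(25 + 11 r5)`) and `s₁` (`s₁² = -(3 + ψ) = -(5 + r5)/2`).

* `kW A B` is the curve `y² = x³ + 27 A x + 54 B`;
* `ptX ψ x y`, `ptY ψ ρ x y` are the coordinates of `P(v)`;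
* `kSx ψ s₁ x y`, `kSy ψ s₁ x y` are the coordinates of `S v` (Klein's generator of order 2 in
  `PSL₂`, `S = (1/r5) [[-s₁, s₂], [s₂, s₁]]`, `s₂ = ψ s₁`);
* `five_nsmul_of_X`: any point of `E_v` with `x`-coordinate `ptX ψ x y` is killed by 5;
* `kf_S`, `kH_S`, `kT_S`: invariance of the forms under `S`;
* `indep`: `P(v)` and `P(S v)` are `ℤ/5`-independent when `f(v) ≠ 0`.
-/
import Fermat.Agent.S52.H14.KleinS

set_option autoImplicit false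

open WeierstrassCurve

namespace Fermat.Agent.S52.H14

variable {K : Type*} [Field K]

/-- The curve `y² = x³ + 27 A x + 54 B`. -/
def kW (A B : K) : WeierstrassCurve.Affine K := ⟨0, 0, 0, 27 * A, 54 * B⟩

@[simp] theorem kW_a₁ (A B : K) : (kW A B).a₁ = 0 := rfl
@[simp] theorem kW_a₂ (A B : K) : (kW A B).a₂ = 0 := rfl
@[simp] theorem kW_a₃ (A B : K) : (kW A B).a₃ = 0 := rfl
@[simp] theorem kW_a₄ (A B : K) : (kW A B).a₄ = 27 * A := rfl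
@[simp] theorem kW_a₆ (A B : K) : (kW A B).a₆ = 54 * B := rfl

theorem kW_equation_iff (A B X Y : K) :
    (kW A B).Equation X Y ↔ Y ^ 2 = X ^ 3 + 27 * A * X + 54 * B := by
  rw [Affine.equation_iff]
  simp

theorem kW_nonsingular_of (h2 : (2 : K) ≠ 0) {A B X Y : K}
    (h : Y ^ 2 = X ^ 3 + 27 * A * X + 54 * B) (hY : Y ≠ 0) : (kW A B).Nonsingular X Y := by
  rw [Affine.nonsingular_iff]
  refine ⟨(kW_equation_iff A B X Y).mpr h, Or.inr ?_⟩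
  simp only [kW_a₁, kW_a₃, zero_mul, sub_zero]
  intro h'
  apply hY
  have : 2 * Y = 0 := by linear_combination h'
  exact (mul_eq_zero.mp this).resolve_left h2

/-- `x`-coordinate of the 5-torsion point `P(v)`. -/
def ptX (ψ x y : K) : K := kXt ψ x y / 5

/-- `y`-coordinate of the 5-torsion point `P(v)`. -/
def ptY (ψ ρ x y : K) : K := ρ * kL ψ x y * kg x y

/-- First coordinate of `S v`. -/
def kSx (ψ s₁ x y : K) : K := s₁ / (2 * ψ + 1) * kNx ψ x y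

/-- Second coordinate of `S v`. -/
def kSy (ψ s₁ x y : K) : K := s₁ / (2 * ψ + 1) * kNy ψ x y

section basic

variable {ψ : K} (hψ : ψ ^ 2 = 1 - ψ)
include hψ

theorem r5_ne_zero (h5 : (5 : K) ≠ 0) : (2 * ψ + 1 : K) ≠ 0 := by
  intro h
  apply h5
  rw [← r5_sq hψ, h]; ring

theorem three_add_ne_zero (h5 : (5 : K) ≠ 0) : (3 + ψ : K) ≠ 0 := by
  intro h
  apply h5
  rw [← three_add_mul_two_sub hψ, h, zero_mul]

theorem two_sub_ne_zero (h5 : (5 : K) ≠ 0) : (2 - ψ : K) ≠ 0 := by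
  intro h
  apply h5
  rw [← three_add_mul_two_sub hψ, h, mul_zero]

theorem eighteen_ne_zero (h5 : (5 : K) ≠ 0) : (18 + 11 * ψ : K) ≠ 0 := by
  intro h
  apply h5
  rw [← norm_eighteen hψ, h, zero_mul]

theorem seven_ne_zero (h5 : (5 : K) ≠ 0) : (7 - 11 * ψ : K) ≠ 0 := by
  intro h
  apply h5
  rw [← norm_eighteen hψ, h, mul_zero]

omit hψ in
theorem kg_ne_zero {x y : K} (hf : kf x y ≠ 0) : kg x y ≠ 0 := by
  intro h
  apply hf
  rw [kf, h, mul_zero]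

omit hψ in
theorem xy_ne_zero {x y : K} (hf : kf x y ≠ 0) : x * y ≠ 0 := by
  intro h
  apply hf
  rw [kf, h, zero_mul]

theorem kL_ne_zero {x y : K} (hf : kf x y ≠ 0) : kL ψ x y ≠ 0 := by
  intro h
  apply kg_ne_zero hf
  rw [← kL_mul_kLc hψ, h, zero_mul]

theorem kLc_ne_zero {x y : K} (hf : kf x y ≠ 0) : kLc ψ x y ≠ 0 := by
  intro h
  apply kg_ne_zero hf
  rw [← kL_mul_kLc hψ, h, mul_zero]

omit hψ in
theorem kg8_ne_zero {x y : K} (hf : kf x y ≠ 0) : kg8 x y ≠ 0 := by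
  intro h
  apply hf
  rw [← kg8_mul, h, zero_mul]

theorem kq8_ne_zero {x y : K} (hf : kf x y ≠ 0) : kq8 ψ x y ≠ 0 := by
  intro h
  apply hf
  rw [← kq8_mul_kn8 hψ, h, zero_mul]

theorem kq8c_ne_zero {x y : K} (hf : kf x y ≠ 0) : kq8c ψ x y ≠ 0 := by
  intro h
  apply hf
  rw [← kq8c_mul_kn8c hψ, h, zero_mul]

omit hψ in
theorem num36_ne_zero (h2 : (2 : K) ≠ 0) (h3 : (3 : K) ≠ 0) : (36 : K) ≠ 0 := by
  have : (36 : K) = 2 ^ 2 * 3 ^ 2 := by norm_num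
  rw [this]
  exact mul_ne_zero (pow_ne_zero _ h2) (pow_ne_zero _ h3)

omit hψ in
theorem num58320_ne_zero (h2 : (2 : K) ≠ 0) (h3 : (3 : K) ≠ 0) (h5 : (5 : K) ≠ 0) :
    (58320 : K) ≠ 0 := by
  have : (58320 : K) = 2 ^ 4 * 3 ^ 6 * 5 := by norm_num
  rw [this]
  exact mul_ne_zero (mul_ne_zero (pow_ne_zero _ h2) (pow_ne_zero _ h3)) h5

/-- `x(P) ≠ x(2P)`. -/
theorem kXt_ne_kXtc (h2 : (2 : K) ≠ 0) (h3 : (3 : K) ≠ 0) (h5 : (5 : K) ≠ 0) {x y : K}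
    (hf : kf x y ≠ 0) : kXt ψ x y ≠ kXtc ψ x y := by
  intro h
  have h1 := kXt_sub_kXtc ψ x y
  rw [h, sub_self, zero_mul] at h1
  have : (-36 : K) * (2 * ψ + 1) * kf x y ≠ 0 :=
    mul_ne_zero (mul_ne_zero (neg_ne_zero.mpr (num36_ne_zero h2 h3)) (r5_ne_zero hψ h5)) hf
  exact this h1.symm

/-- A point of `E_v` with `x`-coordinate `ptX` is not 2-torsion. -/
theorem Y_ne_zero_of_X (h2 : (2 : K) ≠ 0) (h3 : (3 : K) ≠ 0) (h5 : (5 : K) ≠ 0) {x y X Y : K}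
    (hf : kf x y ≠ 0) (hE : Y ^ 2 = X ^ 3 + 27 * kH x y * X + 54 * kT x y)
    (hX : 5 * X = kXt ψ x y) : Y ≠ 0 := by
  intro hY
  have key : 125 * Y ^ 2 = -58320 * (18 + 11 * ψ) * kL ψ x y ^ 2 * kg x y ^ 2 := by
    rw [← cubic_kXt hψ, ← hX, hE]; ring
  rw [hY] at key
  have hne : (-58320 : K) * (18 + 11 * ψ) * kL ψ x y ^ 2 * kg x y ^ 2 ≠ 0 :=
    mul_ne_zero (mul_ne_zero (mul_ne_zero (neg_ne_zero.mpr (num58320_ne_zero h2 h3 h5))
      (eighteen_ne_zero hψ h5)) (pow_ne_zero _ (kL_ne_zero hψ hf))) (pow_ne_zero _ (kg_ne_zero hf))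
  apply hne
  rw [← key]; ring

/-- A point of `E_v` with `x`-coordinate `conj ptX` is not 2-torsion. -/
theorem Y_ne_zero_of_Xc (h2 : (2 : K) ≠ 0) (h3 : (3 : K) ≠ 0) (h5 : (5 : K) ≠ 0) {x y X Y : K}
    (hf : kf x y ≠ 0) (hE : Y ^ 2 = X ^ 3 + 27 * kH x y * X + 54 * kT x y)
    (hX : 5 * X = kXtc ψ x y) : Y ≠ 0 := by
  intro hY
  have key : 125 * Y ^ 2 = -58320 * (7 - 11 * ψ) * kLc ψ x y ^ 2 * kg x y ^ 2 := by
    rw [← cubic_kXtc hψ, ← hX, hE]; ring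
  rw [hY] at key
  have hne : (-58320 : K) * (7 - 11 * ψ) * kLc ψ x y ^ 2 * kg x y ^ 2 ≠ 0 :=
    mul_ne_zero (mul_ne_zero (mul_ne_zero (neg_ne_zero.mpr (num58320_ne_zero h2 h3 h5))
      (seven_ne_zero hψ h5)) (pow_ne_zero _ (kLc_ne_zero hψ hf))) (pow_ne_zero _ (kg_ne_zero hf))
  apply hne
  rw [← key]; ring

omit hψ in
theorem num625_ne_zero (h5 : (5 : K) ≠ 0) : (625 : K) ≠ 0 := by
  have : (625 : K) = 5 ^ 4 := by norm_num
  rw [this]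
  exact pow_ne_zero _ h5

/-- Duplication formula at `x = ptX`: the tangent relation giving `x(2P) = conj ptX`. -/
theorem dbl_rel (h5 : (5 : K) ≠ 0) {x y X Y X' : K}
    (hE : Y ^ 2 = X ^ 3 + 27 * kH x y * X + 54 * kT x y)
    (hX : 5 * X = kXt ψ x y) (hX' : 5 * X' = kXtc ψ x y) :
    (3 * X ^ 2 + 27 * kH x y) ^ 2 = 4 * Y ^ 2 * (2 * X + X') := by
  have e := dbl_kXt hψ x y
  rw [← hX, ← hX'] at e
  have : (625 : K) * (3 * X ^ 2 + 27 * kH x y) ^ 2 = 625 * (4 * Y ^ 2 * (2 * X + X')) := by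
    rw [hE]; linear_combination e
  exact mul_left_cancel₀ (num625_ne_zero h5) this

/-- Duplication formula at `x = conj ptX`: `x(2 · 2P) = ptX`. -/
theorem dbl_rel_c (h5 : (5 : K) ≠ 0) {x y X Y X' : K}
    (hE : Y ^ 2 = X ^ 3 + 27 * kH x y * X + 54 * kT x y)
    (hX : 5 * X = kXtc ψ x y) (hX' : 5 * X' = kXt ψ x y) :
    (3 * X ^ 2 + 27 * kH x y) ^ 2 = 4 * Y ^ 2 * (2 * X + X') := by
  have e := dbl_kXtc hψ x y
  rw [← hX, ← hX'] at e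
  have : (625 : K) * (3 * X ^ 2 + 27 * kH x y) ^ 2 = 625 * (4 * Y ^ 2 * (2 * X + X')) := by
    rw [hE]; linear_combination e
  exact mul_left_cancel₀ (num625_ne_zero h5) this

end basic

section group

variable [DecidableEq K]

/-- Doubling on `kW A B`: if the tangent relation holds, `2 (X, Y) = (X', ·)`. -/
theorem add_self_X (h2 : (2 : K) ≠ 0) {A B X Y X' : K} (h : (kW A B).Nonsingular X Y)
    (hY : Y ≠ 0) (hd : (3 * X ^ 2 + 27 * A) ^ 2 = 4 * Y ^ 2 * (2 * X + X')) :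
    ∃ (Y' : K) (h' : (kW A B).Nonsingular X' Y'),
      Affine.Point.some X Y h + Affine.Point.some X Y h = Affine.Point.some X' Y' h' := by
  have hy : Y ≠ (kW A B).negY X Y := by
    simp only [Affine.negY, kW_a₁, kW_a₃, zero_mul, sub_zero]
    intro h'
    apply hY
    have : 2 * Y = 0 := by linear_combination h'
    exact (mul_eq_zero.mp this).resolve_left h2
  have hadd := Affine.Point.add_self_of_Y_ne (h₁ := h) hy
  have hx : (kW A B).addX X X ((kW A B).slope X X Y Y) = X' := by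
    rw [Affine.slope_of_Y_ne rfl hy]
    simp only [Affine.addX, Affine.negY, kW_a₁, kW_a₂, kW_a₃, kW_a₄, zero_mul, mul_zero,
      sub_zero, add_zero]
    have h2Y : Y - -Y ≠ 0 := by
      intro h'
      apply hY
      have : 2 * Y = 0 := by linear_combination h'
      exact (mul_eq_zero.mp this).resolve_left h2
    have hD2 : (Y - -Y) ^ 2 ≠ 0 := pow_ne_zero _ h2Y
    have hq : ((3 * X ^ 2 + 27 * A) / (Y - -Y)) ^ 2 = 2 * X + X' := by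
      rw [div_pow, div_eq_iff hD2]
      linear_combination hd
    linear_combination hq
  subst hx
  exact ⟨_, _, hadd⟩

variable {ψ : K} (hψ : ψ ^ 2 = 1 - ψ)
include hψ

/-- `2 P = (conj ptX, ·)` for every point `P` of `E_v` with `x`-coordinate `ptX`. -/
theorem two_nsmul_of_X (h2 : (2 : K) ≠ 0) (h3 : (3 : K) ≠ 0) (h5 : (5 : K) ≠ 0)
    {A B x y X Y X' : K} (hA : A = kH x y) (hB : B = kT x y) (hf : kf x y ≠ 0)
    (h : (kW A B).Nonsingular X Y) (hX : 5 * X = kXt ψ x y) (hX' : 5 * X' = kXtc ψ x y) :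
    ∃ (Y' : K) (h' : (kW A B).Nonsingular X' Y'),
      Affine.Point.some X Y h + Affine.Point.some X Y h = Affine.Point.some X' Y' h' := by
  subst hA hB
  have hE := (kW_equation_iff _ _ X Y).mp h.1
  exact add_self_X h2 h (Y_ne_zero_of_X hψ h2 h3 h5 hf hE hX) (dbl_rel hψ h5 hE hX hX')

/-- `2 P' = (ptX, ·)` for every point `P'` of `E_v` with `x`-coordinate `conj ptX`. -/
theorem two_nsmul_of_Xc (h2 : (2 : K) ≠ 0) (h3 : (3 : K) ≠ 0) (h5 : (5 : K) ≠ 0)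
    {A B x y X Y X' : K} (hA : A = kH x y) (hB : B = kT x y) (hf : kf x y ≠ 0)
    (h : (kW A B).Nonsingular X Y) (hX : 5 * X = kXtc ψ x y) (hX' : 5 * X' = kXt ψ x y) :
    ∃ (Y' : K) (h' : (kW A B).Nonsingular X' Y'),
      Affine.Point.some X Y h + Affine.Point.some X Y h = Affine.Point.some X' Y' h' := by
  subst hA hB
  have hE := (kW_equation_iff _ _ X Y).mp h.1
  exact add_self_X h2 h (Y_ne_zero_of_Xc hψ h2 h3 h5 hf hE hX) (dbl_rel_c hψ h5 hE hX hX')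

/-- Every point of `E_v` with `x`-coordinate `ptX ψ x y` is killed by 5. -/
theorem five_nsmul_of_X (h2 : (2 : K) ≠ 0) (h3 : (3 : K) ≠ 0) (h5 : (5 : K) ≠ 0)
    {A B x y X Y : K} (hA : A = kH x y) (hB : B = kT x y) (hf : kf x y ≠ 0)
    (h : (kW A B).Nonsingular X Y) (hX : 5 * X = kXt ψ x y) :
    (5 : ℕ) • Affine.Point.some X Y h = 0 := by
  have hXc : 5 * (kXtc ψ x y / 5) = kXtc ψ x y := mul_div_cancel₀ _ h5
  obtain ⟨Y2, hn2, e2⟩ := two_nsmul_of_X hψ h2 h3 h5 hA hB hf h hX hXc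
  obtain ⟨Y4, hn4, e4⟩ := two_nsmul_of_Xc hψ h2 h3 h5 hA hB hf hn2 hXc hX
  have e5 : (5 : ℕ) • Affine.Point.some X Y h
      = (Affine.Point.some X Y h + Affine.Point.some X Y h)
        + (Affine.Point.some X Y h + Affine.Point.some X Y h) + Affine.Point.some X Y h := by
    abel
  rw [e5, e2, e4]
  rcases (Affine.Point.X_eq_iff (h₁ := hn4) (h₂ := h)).mp rfl with h4 | h4
  · -- `4P = P`: then `2P = -P`, so `x(2P) = x(P)`, impossible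
    exfalso
    have e3 : Affine.Point.some (kXtc ψ x y / 5) Y2 hn2 = -Affine.Point.some X Y h := by
      have e6 : Affine.Point.some (kXtc ψ x y / 5) Y2 hn2
          + Affine.Point.some (kXtc ψ x y / 5) Y2 hn2 = Affine.Point.some X Y h := by
        rw [e4, h4]
      rw [← e2] at e6 ⊢
      have e7 : (Affine.Point.some X Y h + Affine.Point.some X Y h)
          + Affine.Point.some X Y h = 0 := by
        have := sub_eq_zero.mpr e6
        rw [← this]; abel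
      exact eq_neg_of_add_eq_zero_left e7
    have hxx : kXtc ψ x y / 5 = X :=
      (Affine.Point.X_eq_iff (h₁ := hn2) (h₂ := h)).mpr (Or.inr e3)
    apply kXt_ne_kXtc hψ h2 h3 h5 hf
    rw [← hX, ← hxx, hXc]
  · rw [h4]; exact neg_add_cancel _

end group

section Sinv

variable {ψ s₁ : K} (hψ : ψ ^ 2 = 1 - ψ) (hs : s₁ ^ 2 = -(3 + ψ))
include hψ hs

theorem scal_sq_mul (h5 : (5 : K) ≠ 0) : (s₁ / (2 * ψ + 1)) ^ 2 * (2 - ψ) = -1 := by
  rw [div_pow, hs, r5_sq hψ, div_mul_eq_mul_div, div_eq_iff h5]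
  linear_combination (-1 : K) * three_add_mul_two_sub hψ

theorem kf_S (h5 : (5 : K) ≠ 0) (x y : K) : kf (kSx ψ s₁ x y) (kSy ψ s₁ x y) = kf x y := by
  unfold kSx kSy
  rw [kf_smul, kf_N hψ]
  calc (s₁ / (2 * ψ + 1)) ^ 12 * ((2 - ψ) ^ 6 * kf x y)
      = ((s₁ / (2 * ψ + 1)) ^ 2 * (2 - ψ)) ^ 6 * kf x y := by ring
    _ = kf x y := by rw [scal_sq_mul hψ hs h5]; ring

theorem kH_S (h5 : (5 : K) ≠ 0) (x y : K) : kH (kSx ψ s₁ x y) (kSy ψ s₁ x y) = kH x y := by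
  unfold kSx kSy
  rw [kH_smul, kH_N hψ]
  calc (s₁ / (2 * ψ + 1)) ^ 20 * ((2 - ψ) ^ 10 * kH x y)
      = ((s₁ / (2 * ψ + 1)) ^ 2 * (2 - ψ)) ^ 10 * kH x y := by ring
    _ = kH x y := by rw [scal_sq_mul hψ hs h5]; ring

theorem kT_S (h5 : (5 : K) ≠ 0) (x y : K) : kT (kSx ψ s₁ x y) (kSy ψ s₁ x y) = kT x y := by
  unfold kSx kSy
  rw [kT_smul, kT_N hψ]
  calc (s₁ / (2 * ψ + 1)) ^ 30 * (-(2 - ψ) ^ 15 * kT x y)
      = -((s₁ / (2 * ψ + 1)) ^ 2 * (2 - ψ)) ^ 15 * kT x y := by ring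
    _ = kT x y := by rw [scal_sq_mul hψ hs h5]; ring

theorem scal_pow_ten (h5 : (5 : K) ≠ 0) : 5 ^ 5 * (s₁ / (2 * ψ + 1)) ^ 10 = -(3 + ψ) ^ 5 := by
  have e : (s₁ / (2 * ψ + 1)) ^ 2 * 5 = -(3 + ψ) := by
    rw [div_pow, hs, r5_sq hψ, div_mul_cancel₀ _ h5]
  calc 5 ^ 5 * (s₁ / (2 * ψ + 1)) ^ 10 = ((s₁ / (2 * ψ + 1)) ^ 2 * 5) ^ 5 := by ring
    _ = -(3 + ψ) ^ 5 := by rw [e]; ring

/-- `5⁶ (x(P(Sv)) - x(P(v)))`. -/
theorem kXt_S_sub (h5 : (5 : K) ≠ 0) (x y : K) :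
    5 ^ 5 * (kXt ψ (kSx ψ s₁ x y) (kSy ψ s₁ x y) - kXt ψ x y)
      = 36 * 5 ^ 5 * (3 + ψ) * kg8 x y * kq8 ψ x y := by
  rw [← kD1t hψ]
  unfold kSx kSy
  rw [kXt_smul]
  linear_combination kXt ψ (kNx ψ x y) (kNy ψ x y) * scal_pow_ten hψ hs h5

/-- `5⁶ (x(P(Sv)) - x(2P(v)))`. -/
theorem kXt_S_sub_c (h5 : (5 : K) ≠ 0) (x y : K) :
    5 ^ 5 * (kXt ψ (kSx ψ s₁ x y) (kSy ψ s₁ x y) - kXtc ψ x y)
      = 36 * 5 ^ 5 * (2 - ψ) * kg8 x y * kq8c ψ x y := by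
  rw [← kD2t hψ]
  unfold kSx kSy
  rw [kXt_smul]
  linear_combination kXt ψ (kNx ψ x y) (kNy ψ x y) * scal_pow_ten hψ hs h5

theorem kXt_S_ne (h2 : (2 : K) ≠ 0) (h3 : (3 : K) ≠ 0) (h5 : (5 : K) ≠ 0) {x y : K}
    (hf : kf x y ≠ 0) : kXt ψ (kSx ψ s₁ x y) (kSy ψ s₁ x y) ≠ kXt ψ x y := by
  intro h
  have e := kXt_S_sub hψ hs h5 x y
  rw [h, sub_self, mul_zero] at e
  have : (36 : K) * 5 ^ 5 * (3 + ψ) * kg8 x y * kq8 ψ x y ≠ 0 :=
    mul_ne_zero (mul_ne_zero (mul_ne_zero (mul_ne_zero (num36_ne_zero h2 h3) (pow_ne_zero _ h5))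
      (three_add_ne_zero hψ h5)) (kg8_ne_zero hf)) (kq8_ne_zero hψ hf)
  exact this e.symm

theorem kXt_S_ne_c (h2 : (2 : K) ≠ 0) (h3 : (3 : K) ≠ 0) (h5 : (5 : K) ≠ 0) {x y : K}
    (hf : kf x y ≠ 0) : kXt ψ (kSx ψ s₁ x y) (kSy ψ s₁ x y) ≠ kXtc ψ x y := by
  intro h
  have e := kXt_S_sub_c hψ hs h5 x y
  rw [h, sub_self, mul_zero] at e
  have : (36 : K) * 5 ^ 5 * (2 - ψ) * kg8 x y * kq8c ψ x y ≠ 0 :=
    mul_ne_zero (mul_ne_zero (mul_ne_zero (mul_ne_zero (num36_ne_zero h2 h3) (pow_ne_zero _ h5))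
      (two_sub_ne_zero hψ h5)) (kg8_ne_zero hf)) (kq8c_ne_zero hψ hf)
  exact this e.symm

end Sinv

section point

variable {ψ ρ : K} (hψ : ψ ^ 2 = 1 - ψ) (hρ : 25 * ρ ^ 2 = -11664 * (18 + 11 * ψ))
include hψ hρ

omit hψ hρ in
theorem five_mul_ptX (h5 : (5 : K) ≠ 0) (x y : K) : 5 * ptX ψ x y = kXt ψ x y :=
  mul_div_cancel₀ _ h5

/-- `P(v)` satisfies the Weierstrass equation of `E_v`. -/
theorem ptY_sq (h5 : (5 : K) ≠ 0) (x y : K) :
    ptY ψ ρ x y ^ 2 = ptX ψ x y ^ 3 + 27 * kH x y * ptX ψ x y + 54 * kT x y := by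
  have hX := five_mul_ptX (ψ := ψ) h5 x y
  have e := cubic_kXt hψ x y
  rw [← hX] at e
  have h125 : (125 : K) ≠ 0 := by
    have : (125 : K) = 5 ^ 3 := by norm_num
    rw [this]; exact pow_ne_zero _ h5
  apply mul_left_cancel₀ h125
  unfold ptY
  linear_combination (5 * kL ψ x y ^ 2 * kg x y ^ 2) * hρ - e

theorem ptY_ne_zero (h2 : (2 : K) ≠ 0) (h3 : (3 : K) ≠ 0) (h5 : (5 : K) ≠ 0) {x y : K}
    (hf : kf x y ≠ 0) : ptY ψ ρ x y ≠ 0 :=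
  Y_ne_zero_of_X hψ h2 h3 h5 hf (ptY_sq hψ hρ h5 x y) (five_mul_ptX h5 x y)

/-- `P(v) = (ptX, ptY)` is a nonsingular point of `E_v` when `f(v) ≠ 0`. -/
theorem nonsingular_pt (h2 : (2 : K) ≠ 0) (h3 : (3 : K) ≠ 0) (h5 : (5 : K) ≠ 0) {A B x y : K}
    (hA : A = kH x y) (hB : B = kT x y) (hf : kf x y ≠ 0) :
    (kW A B).Nonsingular (ptX ψ x y) (ptY ψ ρ x y) := by
  subst hA hB
  exact kW_nonsingular_of h2 (ptY_sq hψ hρ h5 x y) (ptY_ne_zero hψ hρ h2 h3 h5 hf)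

end point

section indep

/-- Two elements of order 5 generate `(ℤ/5)²` as soon as the second is none of `0, ±P, ±2P`. -/
theorem zmod5_indep {G : Type*} [AddCommGroup G] {P Q : G} (hP : (5 : ℕ) • P = 0)
    (hQ : (5 : ℕ) • Q = 0) (hP0 : P ≠ 0) (hQ0 : Q ≠ 0) (h1 : Q ≠ P) (h2 : Q ≠ -P)
    (h3 : Q ≠ P + P) (h4 : Q ≠ -(P + P)) (m n : ℤ) (h : m • P + n • Q = 0) :
    (5 : ℤ) ∣ m ∧ (5 : ℤ) ∣ n := by
  have hP' : (5 : ℤ) • P = 0 := by exact_mod_cast hP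
  have hQ' : (5 : ℤ) • Q = 0 := by exact_mod_cast hQ
  have key2 : ∀ (k : ℤ) (R : G), ¬ (5 : ℤ) ∣ k → (5 : ℤ) • R = 0 → k • R = 0 → R = 0 := by
    intro k R hk h5R hkR
    have hcop : IsCoprime k 5 := by
      have h5p : Prime (5 : ℤ) := by norm_num
      exact (h5p.coprime_iff_not_dvd.mpr hk).symm
    obtain ⟨a, b, hab⟩ := hcop
    have : R = (a * k + b * 5) • R := by rw [hab, one_smul]
    rw [this, add_smul, mul_smul, mul_smul, hkR, h5R, smul_zero, smul_zero, add_zero]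
  have key1 : ∀ k : ℤ, Q ≠ k • P := by
    intro k hk
    have hk' : k • P = (k % 5) • P := by
      conv_lhs => rw [← Int.emod_add_mul_ediv k 5]
      rw [add_smul, mul_smul, smul_comm, hP', smul_zero, add_zero]
    rw [hk'] at hk
    have hr0 := Int.emod_nonneg k (by norm_num : (5 : ℤ) ≠ 0)
    have hr5 := Int.emod_lt_of_pos k (by norm_num : (0 : ℤ) < 5)
    generalize k % 5 = r at hk hr0 hr5
    interval_cases r
    · exact hQ0 (by rw [hk, zero_smul])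
    · exact h1 (by rw [hk, one_smul])
    · exact h3 (by rw [hk, two_smul])
    · apply h4
      rw [hk, eq_neg_iff_add_eq_zero, ← hP']
      abel
    · apply h2
      rw [hk, eq_neg_iff_add_eq_zero, ← hP']
      abel
  by_cases hn : (5 : ℤ) ∣ n
  · refine ⟨?_, hn⟩
    obtain ⟨c, rfl⟩ := hn
    rw [mul_smul, smul_comm, hQ', smul_zero, add_zero] at h
    by_contra hm
    exact hP0 (key2 m P hm hP' h)
  · exfalso
    have hcop : IsCoprime n 5 := by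
      have h5p : Prime (5 : ℤ) := by norm_num
      exact (h5p.coprime_iff_not_dvd.mpr hn).symm
    obtain ⟨a, b, hab⟩ := hcop
    have hnQ : n • Q = -(m • P) := eq_neg_of_add_eq_zero_right h
    apply key1 (-(a * m))
    have : Q = (a * n + b * 5) • Q := by rw [hab, one_smul]
    rw [this, add_smul, mul_smul, mul_smul, hQ', smul_zero, add_zero, hnQ, neg_smul, mul_smul,
      smul_neg]

end indep

section main

variable [DecidableEq K] {ψ ρ s₁ : K} (hψ : ψ ^ 2 = 1 - ψ)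
  (hρ : 25 * ρ ^ 2 = -11664 * (18 + 11 * ψ)) (hs : s₁ ^ 2 = -(3 + ψ))
include hψ hρ hs

/-- **E2, main statement.** For `f(v) ≠ 0` the points `P(v) = (ptX, ptY)(v)` and
`Q(v) = (ptX, ptY)(S v)` are nonsingular points of `E_v : y² = x³ + 27 H(v) x + 54 T(v)`,
both are killed by 5, and they are `ℤ/5`-independent: they generate a subgroup of order 25. -/
theorem exists_basis (h2 : (2 : K) ≠ 0) (h3 : (3 : K) ≠ 0) (h5 : (5 : K) ≠ 0) {x y : K}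
    (hf : kf x y ≠ 0) :
    ∃ (hP : (kW (kH x y) (kT x y)).Nonsingular (ptX ψ x y) (ptY ψ ρ x y))
      (hQ : (kW (kH x y) (kT x y)).Nonsingular (ptX ψ (kSx ψ s₁ x y) (kSy ψ s₁ x y))
        (ptY ψ ρ (kSx ψ s₁ x y) (kSy ψ s₁ x y))),
      (5 : ℕ) • Affine.Point.some _ _ hP = 0 ∧ (5 : ℕ) • Affine.Point.some _ _ hQ = 0 ∧
      ∀ m n : ℤ, m • Affine.Point.some _ _ hP + n • Affine.Point.some _ _ hQ = 0 →
        (5 : ℤ) ∣ m ∧ (5 : ℤ) ∣ n := by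
  have hfS : kf (kSx ψ s₁ x y) (kSy ψ s₁ x y) ≠ 0 := by rw [kf_S hψ hs h5]; exact hf
  have hAS := (kH_S hψ hs h5 x y).symm
  have hBS := (kT_S hψ hs h5 x y).symm
  have hP := nonsingular_pt hψ hρ h2 h3 h5 rfl rfl hf
  have hQ := nonsingular_pt hψ hρ h2 h3 h5 hAS hBS hfS
  have h5P := five_nsmul_of_X hψ h2 h3 h5 rfl rfl hf hP (five_mul_ptX h5 x y)
  have h5Q := five_nsmul_of_X hψ h2 h3 h5 hAS hBS hfS hQ (five_mul_ptX h5 _ _)
  have hXc : 5 * (kXtc ψ x y / 5) = kXtc ψ x y := mul_div_cancel₀ _ h5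
  obtain ⟨Y2, hn2, e2⟩ := two_nsmul_of_X hψ h2 h3 h5 rfl rfl hf hP (five_mul_ptX h5 x y) hXc
  have hne1 : ptX ψ (kSx ψ s₁ x y) (kSy ψ s₁ x y) ≠ ptX ψ x y := by
    intro h
    apply kXt_S_ne hψ hs h2 h3 h5 hf
    rw [← five_mul_ptX h5, h, five_mul_ptX h5]
  have hne2 : ptX ψ (kSx ψ s₁ x y) (kSy ψ s₁ x y) ≠ kXtc ψ x y / 5 := by
    intro h
    apply kXt_S_ne_c hψ hs h2 h3 h5 hf
    rw [← five_mul_ptX h5, h, hXc]
  refine ⟨hP, hQ, h5P, h5Q, zmod5_indep h5P h5Q (Affine.Point.some_ne_zero hP)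
    (Affine.Point.some_ne_zero hQ) ?_ ?_ ?_ ?_⟩
  · exact fun h => hne1 ((Affine.Point.X_eq_iff (h₁ := hQ) (h₂ := hP)).mpr (Or.inl h))
  · exact fun h => hne1 ((Affine.Point.X_eq_iff (h₁ := hQ) (h₂ := hP)).mpr (Or.inr h))
  · rw [e2]
    exact fun h => hne2 ((Affine.Point.X_eq_iff (h₁ := hQ) (h₂ := hn2)).mpr (Or.inl h))
  · rw [e2]
    exact fun h => hne2 ((Affine.Point.X_eq_iff (h₁ := hQ) (h₂ := hn2)).mpr (Or.inr h))

end main

end Fermat.Agent.S52.H14
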