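/-
S52 / Program E, package E2 (helper14): adapters for the landed `H14/Torsion.lean`.

* `eq_kW`: a short Weierstrass curve with `a₄ = 27 A`, `a₆ = 54 B` is `kW A B`;
* `kf_eq_H91`, `kH_eq_H91`, `kT_eq_H91`: the Klein forms agree with those of `H91/KleinPoint.lean`;
* `psi_of_r`: constants in terms of a square root `r` of 5;
* `exists_consts`: the constants exist in an algebraically closed field with `2, 5 ≠ 0`;
* `zsmul_eq_zero_iff_of_five`: a nonzero point killed by 5 has order exactly 5;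
* `exists_point_of_order_five`: the one-point statement used by the one-generator route.
-/
import Fermat.Agent.S52.H14.Torsion
import Fermat.Agent.S52.H91.KleinPoint

set_option autoImplicit false

open WeierstrassCurve

namespace Fermat.Agent.S52.H14

variable {K : Type*} [Field K]

theorem eq_kW {W : WeierstrassCurve.Affine K} {A B : K} (h1 : W.a₁ = 0) (h2 : W.a₂ = 0)
    (h3 : W.a₃ = 0) (h4 : W.a₄ = 27 * A) (h6 : W.a₆ = 54 * B) : W = kW A B := by
  cases W
  simp only at h1 h2 h3 h4 h6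
  subst h1 h2 h3 h4 h6
  rfl

theorem kf_eq_H91 (x y : K) : kf x y = Fermat.Agent.S52.H91.kf x y := rfl

theorem kH_eq_H91 (x y : K) : kH x y = Fermat.Agent.S52.H91.kH x y := rfl

theorem kT_eq_H91 (x y : K) : kT x y = Fermat.Agent.S52.H91.kT x y := rfl

/-- From a square root `r` of 5 to `ψ = (r - 1)/2`. -/
theorem psi_of_r (h2 : (2 : K) ≠ 0) {r : K} (hr : r ^ 2 = 5) :
    ((r - 1) / 2) ^ 2 = 1 - (r - 1) / 2 ∧ 2 * ((r - 1) / 2) + 1 = r := by
  constructor
  · rw [div_pow, div_eq_iff (pow_ne_zero 2 h2)]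
    have e : (1 - (r - 1) / 2) * 2 ^ 2 = (2 - (r - 1)) * 2 := by
      have : (r - 1) / 2 * 2 = r - 1 := div_mul_cancel₀ _ h2
      linear_combination (-2 : K) * this
    rw [e]
    linear_combination hr
  · rw [mul_div_cancel₀ _ h2]; ring

/-- The constants exist over an algebraically closed field in which `2, 5 ≠ 0`. -/
theorem exists_consts [IsAlgClosed K] (h2 : (2 : K) ≠ 0) (h5 : (5 : K) ≠ 0) :
    ∃ ψ ρ s₁ : K, ψ ^ 2 = 1 - ψ ∧ 25 * ρ ^ 2 = -11664 * (18 + 11 * ψ) ∧ s₁ ^ 2 = -(3 + ψ) := by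
  obtain ⟨r, hr⟩ := IsAlgClosed.exists_pow_nat_eq (5 : K) (n := 2) (by norm_num)
  obtain ⟨hψ, -⟩ := psi_of_r h2 hr
  obtain ⟨ρ, hρ⟩ := IsAlgClosed.exists_pow_nat_eq
    (-11664 * (18 + 11 * ((r - 1) / 2)) / 25 : K) (n := 2) (by norm_num)
  obtain ⟨s₁, hs⟩ := IsAlgClosed.exists_pow_nat_eq (-(3 + (r - 1) / 2) : K) (n := 2) (by norm_num)
  refine ⟨(r - 1) / 2, ρ, s₁, hψ, ?_, hs⟩
  have h25 : (25 : K) ≠ 0 := by
    have : (25 : K) = 5 ^ 2 := by norm_num
    rw [this]; exact pow_ne_zero _ h5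
  rw [hρ, mul_div_cancel₀ _ h25]

/-- A nonzero element killed by 5 has order exactly 5. -/
theorem zsmul_eq_zero_iff_of_five {G : Type*} [AddCommGroup G] {P : G} (hP : (5 : ℕ) • P = 0)
    (hP0 : P ≠ 0) (m : ℤ) : m • P = 0 ↔ (5 : ℤ) ∣ m := by
  have hP' : (5 : ℤ) • P = 0 := by exact_mod_cast hP
  constructor
  · intro hm
    by_contra h
    have hcop : IsCoprime m 5 := by
      have h5p : Prime (5 : ℤ) := by norm_num
      exact (h5p.coprime_iff_not_dvd.mpr h).symm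
    obtain ⟨a, b, hab⟩ := hcop
    apply hP0
    have : P = (a * m + b * 5) • P := by rw [hab, one_smul]
    rw [this, add_smul, mul_smul, mul_smul, hm, hP', smul_zero, smul_zero, add_zero]
  · rintro ⟨c, rfl⟩
    rw [mul_smul, smul_comm, hP', smul_zero]

/-- **One-point form of E2.** For arbitrary constants `ψ, ρ` with the two relations and any
short Weierstrass curve `W : y² = x³ + 27 H(v) x + 54 T(v)` (Klein forms in the `H91` spelling)
with `f(v) ≠ 0`, the affine point `(ptX ψ v, ptY ψ ρ v)` is nonsingular and has order exactly 5. -/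
theorem exists_point_of_order_five [DecidableEq K] {ψ ρ : K} (hψ : ψ ^ 2 = 1 - ψ)
    (hρ : 25 * ρ ^ 2 = -11664 * (18 + 11 * ψ)) (h2 : (2 : K) ≠ 0) (h3 : (3 : K) ≠ 0)
    (h5 : (5 : K) ≠ 0) {W : WeierstrassCurve.Affine K} {x y : K} (h1 : W.a₁ = 0) (h2' : W.a₂ = 0)
    (h3' : W.a₃ = 0) (h4 : W.a₄ = 27 * Fermat.Agent.S52.H91.kH x y)
    (h6 : W.a₆ = 54 * Fermat.Agent.S52.H91.kT x y) (hf : Fermat.Agent.S52.H91.kf x y ≠ 0) :
    ∃ hP : W.Nonsingular (ptX ψ x y) (ptY ψ ρ x y),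
      (5 : ℕ) • Affine.Point.some _ _ hP = 0 ∧
        ∀ m : ℤ, m • Affine.Point.some _ _ hP = 0 ↔ (5 : ℤ) ∣ m := by
  obtain rfl : W = kW (kH x y) (kT x y) := eq_kW h1 h2' h3' h4 h6
  have hP := nonsingular_pt hψ hρ h2 h3 h5 rfl rfl hf
  have h5P := five_nsmul_of_X hψ h2 h3 h5 rfl rfl hf hP (five_mul_ptX h5 x y)
  exact ⟨hP, h5P, zsmul_eq_zero_iff_of_five h5P (Affine.Point.some_ne_zero hP)⟩

end Fermat.Agent.S52.H14
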