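/-
S52 / Program E, package E2 (helper14): Klein's icosahedral forms and the explicit 5-torsion
point on `y² = x³ + 27 H x + 54 T`.  This file: definitions and the polynomial identities, over a
commutative ring with an element `ψ`, `ψ² = 1 - ψ` (so `r5 = 2ψ + 1` is a square root of 5).
All cofactors were computed by exact integer arithmetic (no numerics).
-/
import Mathlib

set_option autoImplicit false

namespace Fermat.Agent.S52.H14

variable {R : Type*} [CommRing R]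

/-- `x¹⁰ + 11 x⁵ y⁵ - y¹⁰`. -/
def kg (x y : R) : R := x ^ 10 + 11 * x ^ 5 * y ^ 5 - y ^ 10

/-- Klein's icosahedral form `f = x y (x¹⁰ + 11 x⁵ y⁵ - y¹⁰)`. -/
def kf (x y : R) : R := x * y * kg x y

/-- Klein's form `H` of degree 20. -/
def kH (x y : R) : R :=
  -(x ^ 20 + y ^ 20) + 228 * (x ^ 15 * y ^ 5 - x ^ 5 * y ^ 15) - 494 * x ^ 10 * y ^ 10

/-- Klein's form `T` of degree 30. -/
def kT (x y : R) : R :=
  x ^ 30 + y ^ 30 + 522 * (x ^ 25 * y ^ 5 - x ^ 5 * y ^ 25)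
    - 10005 * (x ^ 20 * y ^ 10 + x ^ 10 * y ^ 20)

/-- `5 ·` (the `x`-coordinate of the 5-torsion point). -/
def kXt (ψ x y : R) : R := -75 * (x ^ 10 + y ^ 10) - 18 * (2 * ψ + 1) * kg x y

/-- `5 ·` (the `x`-coordinate of twice the 5-torsion point): the conjugate of `kXt`. -/
def kXtc (ψ x y : R) : R := -75 * (x ^ 10 + y ^ 10) + 18 * (2 * ψ + 1) * kg x y

/-- The quintic factor `x⁵ - β y⁵` of `kg`, `β = -3 + 5ψ`. -/
def kL (ψ x y : R) : R := x ^ 5 + (3 - 5 * ψ) * y ^ 5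

/-- The conjugate quintic factor of `kg`. -/
def kLc (ψ x y : R) : R := x ^ 5 + (8 + 5 * ψ) * y ^ 5

/-- First coordinate of `N v`, `N = [[-1, ψ], [ψ, 1]]` (Klein's generator up to a scalar). -/
def kNx (ψ x y : R) : R := -x + ψ * y

/-- Second coordinate of `N v`. -/
def kNy (ψ x y : R) : R := ψ * x + y

/-- The octic factor of `kf` common to both differences of `x`-coordinates. -/
def kg8 (x y : R) : R :=
  x ^ 8 - x ^ 7 * y + 2 * x ^ 6 * y ^ 2 - 3 * x ^ 5 * y ^ 3 + 5 * x ^ 4 * y ^ 4 + 3 * x ^ 3 * y ^ 5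
    + 2 * x ^ 2 * y ^ 6 + x * y ^ 7 + y ^ 8

/-- A quadratic factor of `kg8`. -/
def kq8 (ψ x y : R) : R := x ^ 2 - (1 - ψ) * x * y + (1 - ψ) * y ^ 2

/-- The conjugate quadratic factor of `kg8`. -/
def kq8c (ψ x y : R) : R := x ^ 2 - (2 + ψ) * x * y + (2 + ψ) * y ^ 2

/-- `kf / kq8`. -/
def kn8 (ψ x y : R) : R := x^9 * y + x^8 * y^2 - x^8 * y^2 * ψ + x^7 * y^3 - 2 * x^7 * y^3 * ψ + x^6 * y^4 - 2 * x^6 * y^4 * ψ + 8 * x^4 * y^6 + 5 * x^4 * y^6 * ψ + 3 * x^3 * y^7 + 2 * x^3 * y^7 * ψ - 2 * x^2 * y^8 - x^2 * y^8 * ψ - 2 * x * y^9 - x * y^9 * ψ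

/-- `kf / kq8c`. -/
def kn8c (ψ x y : R) : R := x^9 * y + 2 * x^8 * y^2 + x^8 * y^2 * ψ + 3 * x^7 * y^3 + 2 * x^7 * y^3 * ψ + 3 * x^6 * y^4 + 2 * x^6 * y^4 * ψ + 3 * x^4 * y^6 - 5 * x^4 * y^6 * ψ + x^3 * y^7 - 2 * x^3 * y^7 * ψ - x^2 * y^8 + x^2 * y^8 * ψ - x * y^9 + x * y^9 * ψ

theorem klein_relation (x y : R) : kT x y ^ 2 + kH x y ^ 3 = 1728 * kf x y ^ 5 := by
  unfold kT kH kf kg; ring

theorem kf_smul (c x y : R) : kf (c * x) (c * y) = c ^ 12 * kf x y := by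
  unfold kf kg; ring

theorem kH_smul (c x y : R) : kH (c * x) (c * y) = c ^ 20 * kH x y := by
  unfold kH; ring

theorem kT_smul (c x y : R) : kT (c * x) (c * y) = c ^ 30 * kT x y := by
  unfold kT; ring

theorem kg_smul (c x y : R) : kg (c * x) (c * y) = c ^ 10 * kg x y := by
  unfold kg; ring

theorem kXt_smul (ψ c x y : R) : kXt ψ (c * x) (c * y) = c ^ 10 * kXt ψ x y := by
  unfold kXt kg; ring

theorem kXtc_smul (ψ c x y : R) : kXtc ψ (c * x) (c * y) = c ^ 10 * kXtc ψ x y := by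
  unfold kXtc kg; ring

theorem kL_smul (ψ c x y : R) : kL ψ (c * x) (c * y) = c ^ 5 * kL ψ x y := by
  unfold kL; ring

theorem kg8_mul (x y : R) : kg8 x y * (x * y * (x ^ 2 + x * y - y ^ 2)) = kf x y := by
  unfold kg8 kf kg; ring

theorem kXt_sub_kXtc (ψ x y : R) :
    (kXt ψ x y - kXtc ψ x y) * (x * y) = -36 * (2 * ψ + 1) * kf x y := by
  unfold kXt kXtc kf; ring

section psi

variable {ψ : R} (hψ : ψ ^ 2 = 1 - ψ)
include hψ

theorem r5_sq : (2 * ψ + 1) ^ 2 = 5 := by linear_combination 4 * hψ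

theorem three_add_mul_two_sub : (3 + ψ) * (2 - ψ) = 5 := by linear_combination (-1 : R) * hψ

theorem norm_eighteen : (18 + 11 * ψ) * (7 - 11 * ψ) = 5 := by linear_combination (-121 : R) * hψ

theorem kL_mul_kLc (x y : R) : kL ψ x y * kLc ψ x y = kg x y := by
  unfold kL kLc kg
  linear_combination (-25 * y^10) * hψ

theorem kq8_mul_kn8 (x y : R) : kq8 ψ x y * kn8 ψ x y = kf x y := by
  unfold kq8 kn8 kf kg
  linear_combination (-x^9 * y^3 - x^8 * y^4 + 2 * x^6 * y^6 + 5 * x^5 * y^7 - 3 * x^4 * y^8 - 3 * x^3 * y^9 + x * y^11) * hψ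

theorem kq8c_mul_kn8c (x y : R) : kq8c ψ x y * kn8c ψ x y = kf x y := by
  unfold kq8c kn8c kf kg
  linear_combination (-x^9 * y^3 - x^8 * y^4 + 2 * x^6 * y^6 + 5 * x^5 * y^7 - 3 * x^4 * y^8 - 3 * x^3 * y^9 + x * y^11) * hψ

/-- The point `(kXt/5, ·)` lies on the curve: `125 · Y₁²`, with `25 ρ² = -11664 (18 + 11ψ)`. -/
theorem cubic_kXt (x y : R) :
    kXt ψ x y ^ 3 + 675 * kH x y * kXt ψ x y + 6750 * kT x y
      = -58320 * (18 + 11 * ψ) * kL ψ x y ^ 2 * kg x y ^ 2 := by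
  unfold kXt kH kT kL kg
  linear_combination (-314928 * x^30 - 46656 * x^30 * ψ - 13600224 * x^25 * y^5 - 1539648 * x^25 * y^5 * ψ - 193564080 * x^20 * y^10 - 758160 * x^20 * y^10 * ψ - 991789920 * x^15 * y^15 + 293816160 * x^15 * y^15 * ψ - 961171920 * x^10 * y^20 + 1925318160 * x^10 * y^20 * ψ + 198101376 * x^5 * y^25 - 354375648 * x^5 * y^25 * ψ - 9307872 * y^30 + 16084656 * y^30 * ψ) * hψ

theorem cubic_kXtc (x y : R) :
    kXtc ψ x y ^ 3 + 675 * kH x y * kXtc ψ x y + 6750 * kT x y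
      = -58320 * (7 - 11 * ψ) * kLc ψ x y ^ 2 * kg x y ^ 2 := by
  unfold kXtc kH kT kLc kg
  linear_combination (-268272 * x^30 + 46656 * x^30 * ψ - 12060576 * x^25 * y^5 + 1539648 * x^25 * y^5 * ψ - 192805920 * x^20 * y^10 + 758160 * x^20 * y^10 * ψ - 1285606080 * x^15 * y^15 - 293816160 * x^15 * y^15 * ψ - 2886490080 * x^10 * y^20 - 1925318160 * x^10 * y^20 * ψ + 552477024 * x^5 * y^25 + 354375648 * x^5 * y^25 * ψ - 25392528 * y^30 - 16084656 * y^30 * ψ) * hψ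

/-- Duplication: `x(2P) = conj x(P)`. -/
theorem dbl_kXt (x y : R) :
    (3 * kXt ψ x y ^ 2 + 675 * kH x y) ^ 2
      = 4 * (kXt ψ x y ^ 3 + 675 * kH x y * kXt ψ x y + 6750 * kT x y)
          * (2 * kXt ψ x y + kXtc ψ x y) := by
  unfold kXt kXtc kH kT kg
  linear_combination (75582720 * x^40 + 50388480 * x^40 * ψ + 8398080 * x^40 * ψ^2 + 2569812480 * x^35 * y^5 + 1755198720 * x^35 * y^5 * ψ + 369515520 * x^35 * y^5 * ψ^2 + 29670416640 * x^30 * y^10 + 21221948160 * x^30 * y^10 * ψ + 6063413760 * x^30 * y^10 * ψ^2 + 121713373440 * x^25 * y^15 + 98106370560 * x^25 * y^15 * ψ + 43602831360 * x^25 * y^15 * ψ^2 + 56309126400 * x^20 * y^20 + 110812665600 * x^20 * y^20 * ψ + 110812665600 * x^20 * y^20 * ψ^2 - 67209834240 * x^15 * y^25 + 10900707840 * x^15 * y^25 * ψ - 43602831360 * x^15 * y^25 * ψ^2 + 14511882240 * x^10 * y^30 - 9095120640 * x^10 * y^30 * ψ + 6063413760 * x^10 * y^30 * ψ^2 -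 1184129280 * x^5 * y^35 + 1016167680 * x^5 * y^35 * ψ - 369515520 * x^5 * y^35 * ψ^2 + 33592320 * y^40 - 33592320 * y^40 * ψ + 8398080 * y^40 * ψ^2) * hψ

theorem dbl_kXtc (x y : R) :
    (3 * kXtc ψ x y ^ 2 + 675 * kH x y) ^ 2
      = 4 * (kXtc ψ x y ^ 3 + 675 * kH x y * kXtc ψ x y + 6750 * kT x y)
          * (2 * kXtc ψ x y + kXt ψ x y) := by
  unfold kXt kXtc kH kT kg
  linear_combination (33592320 * x^40 - 33592320 * x^40 * ψ + 8398080 * x^40 * ψ^2 + 1184129280 * x^35 * y^5 - 1016167680 * x^35 * y^5 * ψ + 369515520 * x^35 * y^5 * ψ^2 + 14511882240 * x^30 * y^10 - 9095120640 * x^30 * y^10 * ψ + 6063413760 * x^30 * y^10 * ψ^2 + 67209834240 * x^25 * y^15 - 10900707840 * x^25 * y^15 * ψ + 43602831360 * x^25 * y^15 * ψ^2 + 56309126400 * x^20 * y^20 + 110812665600 * x^20 * y^20 * ψ + 110812665600 * x^20 * y^20 * ψ^2 - 121713373440 * x^15 * y^25 - 98106370560 * x^15 * y^25 * ψ - 43602831360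 * x^15 * y^25 * ψ^2 + 29670416640 * x^10 * y^30 + 21221948160 * x^10 * y^30 * ψ + 6063413760 * x^10 * y^30 * ψ^2 - 2569812480 * x^5 * y^35 - 1755198720 * x^5 * y^35 * ψ - 369515520 * x^5 * y^35 * ψ^2 + 75582720 * y^40 + 50388480 * y^40 * ψ + 8398080 * y^40 * ψ^2) * hψ

end psi

end Fermat.Agent.S52.H14
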